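import Mathlib.NumberTheory.Padics.Hensel
import Mathlib.NumberTheory.Padics.RingHoms
import Mathlib.NumberTheory.Padics.MahlerBasis

/-!
# The measure on `ℤ_p` of an integral symbol at an ordinary prime

From `s : ℚ → ℤ` of period one with `A s(r) = s(p r) + ∑_j s((r + j)/p)` and a unit root `β⁻¹` of
`X² - A X + p` one gets a bounded distribution, and Riemann sums integrate continuous functions.
-/

set_option autoImplicit false

noncomputable section

namespace FA.PadicL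

open Filter Polynomial
open scoped Topology

variable {p : ℕ} [hp : Fact p.Prime]

/-- The unit root. -/
theorem exists_unit_root {A : ℤ} (hA : ¬ (p : ℤ) ∣ A) :
    ∃ α : ℤ_[p], α ^ 2 - (A : ℤ_[p]) * α + p = 0 ∧ IsUnit α := by
  have hAu : ‖(A : ℤ_[p])‖ = 1 := le_antisymm (PadicInt.norm_le_one _)
    (not_lt.mp fun h => hA ((PadicInt.norm_int_lt_one_iff_dvd A).mp h))
  have hp1 : ‖(p : ℤ_[p])‖ < 1 := by
    rw [PadicInt.norm_p]
    exact inv_lt_one_of_one_lt₀ (by exact_mod_cast hp.out.one_lt)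
  let F : ℤ_[p][X] := X ^ 2 - C (A : ℤ_[p]) * X + C (p : ℤ_[p])
  have e1 : F.aeval (A : ℤ_[p]) = (p : ℤ_[p]) := by simp [F]; ring
  have e2 : F.derivative.aeval (A : ℤ_[p]) = (A : ℤ_[p]) := by simp [F]; ring
  obtain ⟨z, hz, hclose, -, -⟩ := hensels_lemma (F := F) (a := (A : ℤ_[p]))
    (by rw [e1, e2, hAu, one_pow]; exact hp1)
  refine ⟨z, by simpa [F] using hz, PadicInt.isUnit_iff.mpr ?_⟩
  rw [e2, hAu] at hclose
  refine le_antisymm (PadicInt.norm_le_one _) (not_lt.mp fun hlt => ?_)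
  have h := PadicInt.nonarchimedean ((A : ℤ_[p]) - z) z
  rw [sub_add_cancel, hAu, norm_sub_rev] at h
  exact not_lt.mpr h (max_lt hclose hlt)

theorem sum_range_mul {B : Type*} [AddCommMonoid B] (g : ℕ → B) (m k : ℕ) :
    ∑ b ∈ Finset.range (m * k), g b =
      ∑ a ∈ Finset.range m, ∑ j ∈ Finset.range k, g (a + j * m) := by
  induction k with
  | zero => simp
  | succ k ih =>
    rw [Nat.mul_succ, Finset.sum_range_add, ih, ← Finset.sum_add_distrib]
    refine Finset.sum_congr rfl fun a _ => ?_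
    rw [Finset.sum_range_succ, show a + k * m = m * k + a by ring]

variable {s : ℚ → ℤ} {β : ℤ_[p]}

/-- The value of the distribution on `a + pⁿ ℤ_p`. -/
def muValue (β : ℤ_[p]) (s : ℚ → ℤ) (n a : ℕ) : ℤ_[p] :=
  β ^ n * (s ((a : ℚ) / (p : ℚ) ^ n) : ℤ_[p]) -
    β ^ (n + 1) * (s ((a : ℚ) * p / (p : ℚ) ^ n) : ℤ_[p])

omit hp in
theorem periodic_add_nat (hper : ∀ r, s (r + 1) = s r) (r : ℚ) (k : ℕ) : s (r + k) = s r := by
  induction k with
  | zero => simp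
  | succ k ih => rw [Nat.cast_succ, ← add_assoc, hper, ih]

/-- **The distribution relation**. -/
theorem sum_muValue {A : ℤ} (hper : ∀ r, s (r + 1) = s r)
    (hrel : ∀ r : ℚ, A * s r = s (p * r) + ∑ j ∈ Finset.range p, s ((r + j) / p))
    (hβ : (A : ℤ_[p]) * β - p * β ^ 2 = 1) (n a : ℕ) :
    ∑ j ∈ Finset.range p, muValue β s (n + 1) (a + j * p ^ n) = muValue β s n a := by
  have hp0 : (p : ℚ) ≠ 0 := Nat.cast_ne_zero.mpr hp.out.ne_zero
  set r : ℚ := (a : ℚ) / (p : ℚ) ^ n with hr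
  have e1 : ∀ j : ℕ, ((a + j * p ^ n : ℕ) : ℚ) / (p : ℚ) ^ (n + 1) = (r + j) / p := fun j => by
    rw [hr]; push_cast; field_simp; ring
  have e2 : ∀ j : ℕ, s (((a + j * p ^ n : ℕ) : ℚ) * p / (p : ℚ) ^ (n + 1)) = s r := fun j => by
    rw [show ((a + j * p ^ n : ℕ) : ℚ) * p / (p : ℚ) ^ (n + 1) = r + j by
      rw [hr]; push_cast; field_simp; ring, periodic_add_nat hper]
  have e3 : s ((a : ℚ) * p / (p : ℚ) ^ n) = s (p * r) := congrArg s (by rw [hr]; ring)
  simp only [muValue, e1, e2, e3, Finset.sum_sub_distrib, Finset.sum_const, Finset.card_range,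
    nsmul_eq_mul, ← Finset.mul_sum]
  have h := congrArg (fun z : ℤ => (z : ℤ_[p])) (hrel r)
  push_cast at h
  linear_combination -β ^ (n + 1) * h + β ^ n * (s r : ℤ_[p]) * hβ

theorem muValue_add_pow (hper : ∀ r, s (r + 1) = s r) (n a : ℕ) :
    muValue β s n (a + p ^ n) = muValue β s n a := by
  have hp0 : (p : ℚ) ≠ 0 := Nat.cast_ne_zero.mpr hp.out.ne_zero
  have e1 : ((a + p ^ n : ℕ) : ℚ) / (p : ℚ) ^ n = (a : ℚ) / (p : ℚ) ^ n + 1 := by
    push_cast; field_simp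
  have e2 : ((a + p ^ n : ℕ) : ℚ) * p / (p : ℚ) ^ n = (a : ℚ) * p / (p : ℚ) ^ n + (p : ℕ) := by
    push_cast; field_simp
  rw [muValue, muValue, e1, hper, e2, periodic_add_nat hper]

/-- The `n`-th Riemann sum. -/
def riemannSum (μ : ℕ → ℕ → ℤ_[p]) (φ : C(ℤ_[p], ℚ_[p])) (n : ℕ) : ℚ_[p] :=
  ∑ a ∈ Finset.range (p ^ n), φ (a : ℤ_[p]) * (μ n a : ℚ_[p])

theorem norm_riemannSum_le (μ : ℕ → ℕ → ℤ_[p]) (φ : C(ℤ_[p], ℚ_[p])) (n : ℕ) :
    ‖riemannSum μ φ n‖ ≤ ‖φ‖ :=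
  IsUltrametricDist.norm_sum_le_of_forall_le_of_nonneg (norm_nonneg φ) fun a _ => by
    rw [norm_mul]
    exact (mul_le_mul (φ.norm_coe_le_norm _) (PadicInt.norm_le_one _) (norm_nonneg _)
      (norm_nonneg φ)).trans_eq (mul_one _)

variable {μ : ℕ → ℕ → ℤ_[p]}
  (hμ : ∀ n a, ∑ j ∈ Finset.range p, μ (n + 1) (a + j * p ^ n) = μ n a)

include hμ

theorem riemannSum_succ_sub (φ : C(ℤ_[p], ℚ_[p])) (n : ℕ) :
    riemannSum μ φ (n + 1) - riemannSum μ φ n =
      ∑ a ∈ Finset.range (p ^ n), ∑ j ∈ Finset.range p,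
        (φ ((a + j * p ^ n : ℕ) : ℤ_[p]) - φ (a : ℤ_[p])) *
          (μ (n + 1) (a + j * p ^ n) : ℚ_[p]) := by
  rw [riemannSum, riemannSum, pow_succ, sum_range_mul, ← Finset.sum_sub_distrib]
  refine Finset.sum_congr rfl fun a _ => ?_
  rw [← hμ n a, PadicInt.coe_sum, Finset.mul_sum, ← Finset.sum_sub_distrib]
  exact Finset.sum_congr rfl fun j _ => by ring

theorem tendsto_riemannSum_diff (φ : C(ℤ_[p], ℚ_[p])) :
    Tendsto (fun n => riemannSum μ φ (n + 1) - riemannSum μ φ n) atTop (𝓝 0) := by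
  rw [Metric.tendsto_atTop]
  intro ε hε
  obtain ⟨d, hd, hφ⟩ := Metric.uniformContinuous_iff.mp
    (CompactSpace.uniformContinuous_of_continuous φ.continuous) (ε / 2) (half_pos hε)
  obtain ⟨K, hK⟩ := exists_pow_lt_of_lt_one hd
    (inv_lt_one_of_one_lt₀ (Nat.one_lt_cast.mpr hp.out.one_lt : (1 : ℝ) < p))
  refine ⟨K, fun n hn => ?_⟩
  rw [dist_zero_right, riemannSum_succ_sub hμ]
  refine lt_of_le_of_lt ?_ (half_lt_self hε)
  refine IsUltrametricDist.norm_sum_le_of_forall_le_of_nonneg (half_pos hε).le fun a _ =>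
    IsUltrametricDist.norm_sum_le_of_forall_le_of_nonneg (half_pos hε).le fun j _ => ?_
  rw [norm_mul]
  refine (mul_le_of_le_one_right (norm_nonneg _) (PadicInt.norm_le_one _)).trans ?_
  refine (dist_eq_norm (φ ((a + j * p ^ n : ℕ) : ℤ_[p])) (φ (a : ℤ_[p]))).symm.trans_le
    (hφ ?_).le
  rw [dist_eq_norm, Nat.cast_add, add_sub_cancel_left, Nat.cast_mul, norm_mul, Nat.cast_pow,
    norm_pow, PadicInt.norm_p]
  refine lt_of_le_of_lt ?_ hK
  calc ‖((j : ℕ) : ℤ_[p])‖ * (p : ℝ)⁻¹ ^ n ≤ 1 * (p : ℝ)⁻¹ ^ n :=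
        mul_le_mul_of_nonneg_right (PadicInt.norm_le_one _) (by positivity)
    _ ≤ (p : ℝ)⁻¹ ^ K := by
      rw [one_mul]
      exact pow_le_pow_of_le_one (by positivity)
        (inv_le_one_of_one_le₀ (Nat.one_le_cast.mpr hp.out.pos)) hn

theorem exists_tendsto_riemannSum (φ : C(ℤ_[p], ℚ_[p])) :
    ∃ L, Tendsto (riemannSum μ φ) atTop (𝓝 L) := by
  have hd := tendsto_riemannSum_diff hμ φ
  rw [← Nat.cofinite_eq_atTop] at hd
  obtain ⟨L, hL⟩ := NonarchimedeanAddGroup.summable_of_tendsto_cofinite_zero hd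
  have h := (hL.tendsto_sum_nat).add_const (riemannSum μ φ 0)
  refine ⟨L + riemannSum μ φ 0, h.congr fun n => ?_⟩
  rw [Finset.sum_range_sub (riemannSum μ φ), sub_add_cancel]

/-- The integral. -/
theorem exists_integral : ∃ Λ : C(ℤ_[p], ℚ_[p]) →L[ℚ_[p]] ℚ_[p],
    ∀ φ, Tendsto (riemannSum μ φ) atTop (𝓝 (Λ φ)) := by
  choose L hL using exists_tendsto_riemannSum hμ (p := p)
  refine ⟨LinearMap.mkContinuous
    { toFun := L
      map_add' := fun φ ψ => tendsto_nhds_unique (hL (φ + ψ))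
        (((hL φ).add (hL ψ)).congr fun n => by
          simp only [riemannSum, ← Finset.sum_add_distrib, ContinuousMap.add_apply, add_mul])
      map_smul' := fun c φ => tendsto_nhds_unique (hL (c • φ))
        (((hL φ).const_mul c).congr fun n => by
          simp only [riemannSum, Finset.mul_sum, ContinuousMap.smul_apply, smul_eq_mul,
            mul_assoc]) } 1 fun φ => ?_, fun φ => hL φ⟩
  rw [one_mul]
  exact le_of_tendsto' (hL φ).norm fun n => norm_riemannSum_le μ φ n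

omit hμ in
theorem norm_natCast_sub_pow (a j m n : ℕ) (hmn : m ≤ n) :
    ‖((a + j * p ^ n : ℕ) : ℤ_[p]) - (a : ℤ_[p])‖ ≤ (p : ℝ) ^ (-(m : ℤ)) := by
  rw [PadicInt.norm_le_pow_iff_mem_span_pow, Ideal.mem_span_singleton]
  push_cast
  rw [add_sub_cancel_left]
  exact (pow_dvd_pow _ hmn).mul_left _

/-- The integral of a function constant on the classes modulo `p ^ m` is a finite sum. -/
theorem eq_riemannSum {Λ : C(ℤ_[p], ℚ_[p]) →L[ℚ_[p]] ℚ_[p]}
    (hΛ : ∀ φ, Tendsto (riemannSum μ φ) atTop (𝓝 (Λ φ))) (φ : C(ℤ_[p], ℚ_[p])) (m : ℕ)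
    (hφ : ∀ x y : ℤ_[p], ‖x - y‖ ≤ (p : ℝ) ^ (-(m : ℤ)) → φ x = φ y) :
    Λ φ = riemannSum μ φ m := by
  have hconst : ∀ k, riemannSum μ φ (m + k) = riemannSum μ φ m := by
    intro k
    induction k with
    | zero => rfl
    | succ k ih =>
      rw [← ih, ← sub_eq_zero, ← add_assoc, riemannSum_succ_sub hμ]
      refine Finset.sum_eq_zero fun a _ => Finset.sum_eq_zero fun j _ => ?_
      rw [hφ _ _ (norm_natCast_sub_pow a j m (m + k) (Nat.le_add_right m k)), sub_self, zero_mul]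
  refine tendsto_nhds_unique (hΛ φ) (tendsto_const_nhds.congr' ?_)
  filter_upwards [Filter.eventually_ge_atTop m] with n hn
  obtain ⟨k, rfl⟩ := Nat.exists_eq_add_of_le hn
  exact (hconst k).symm

/-- The value on the indicator of `a + p ^ m ℤ_p`. -/
theorem eq_value_of_indicator {Λ : C(ℤ_[p], ℚ_[p]) →L[ℚ_[p]] ℚ_[p]}
    (hΛ : ∀ φ, Tendsto (riemannSum μ φ) atTop (𝓝 (Λ φ))) (φ : C(ℤ_[p], ℚ_[p])) (m a : ℕ)
    (ha : a < p ^ m)
    (hφ : ∀ x : ℤ_[p], φ x = if ‖x - a‖ ≤ (p : ℝ) ^ (-(m : ℤ)) then 1 else 0) :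
    Λ φ = (μ m a : ℚ_[p]) := by
  rw [eq_riemannSum hμ hΛ φ m fun x y hxy => ?_, riemannSum,
    Finset.sum_eq_single_of_mem a (Finset.mem_range.mpr ha) fun b hb hne => ?_]
  · rw [hφ, if_pos (by rw [sub_self, norm_zero]; exact zpow_nonneg (Nat.cast_nonneg p) _),
      one_mul]
  · rw [hφ, if_neg, zero_mul]
    rw [PadicInt.norm_le_pow_iff_mem_span_pow, ← PadicInt.ker_toZModPow, RingHom.mem_ker, map_sub,
      map_natCast, map_natCast, sub_eq_zero, ZMod.natCast_eq_natCast_iff',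
      Nat.mod_eq_of_lt (Finset.mem_range.mp hb), Nat.mod_eq_of_lt ha]
    exact hne
  · rw [hφ, hφ]
    refine if_congr ?_ rfl rfl
    constructor <;> intro h
    · have h2 := (IsUltrametricDist.norm_add_le_max (y - x) (x - (a : ℤ_[p]))).trans
        (max_le (by rwa [norm_sub_rev]) h)
      rwa [sub_add_sub_cancel] at h2
    · have h2 := (IsUltrametricDist.norm_add_le_max (x - y) (y - (a : ℤ_[p]))).trans (max_le hxy h)
      rwa [sub_add_sub_cancel] at h2

end FA.PadicL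

end
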