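import Fermat.Agent.PadicL.Symbols
import Fermat.Agent.PadicL.Distribution
import Fermat.Agent.Root.SummaryPeriodLattice

/-!
# The values of the measure at the trivial and at even quadratic characters modulo `p`
-/

set_option autoImplicit false

noncomputable section

namespace FA.PadicL

open UpperHalfPlane hiding I
open Complex CongruenceSubgroup Filter MeasureTheory FA.ManinDrinfeld FA.PeriodLattice
open scoped Real MatrixGroups Topology ComplexConjugate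

variable {N : ℕ} [NeZero N] {f : CuspForm (Gamma0 N) 2} {a : ℕ → ℤ} {Ω : ℝ} {M : ℕ} {s : ℚ → ℤ}

/-- The real number `2πi ∫_{i∞}^0 f`. -/
theorem centre_eq_re (ha : ∀ n, ModularFormClass.qCoeff f n = (a n : ℂ)) :
    2 * (π : ℂ) * I * toZero f = ((2 * (π : ℂ) * I * toZero f).re : ℂ) := by
  refine (Complex.conj_eq_iff_re.mp ?_).symm
  simp [map_ofNat, conj_toZero ha]

theorem continuation_eq_centre {G : ℂ → ℂ} (hG : Differentiable ℂ G)
    (hGs : ∀ z : ℂ, 2 < z.re → G z = LSeries (ModularFormClass.qCoeff f) z) :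
    G 1 = 2 * (π : ℂ) * I * toZero f := by
  rw [continuation_one f hG hGs, toZero_eq_integral]
  linear_combination (2 * (π : ℂ) *
    ∫ t in Set.Ioi (0 : ℝ), f (ofComplex (I * (t : ℂ)))) * I_mul_I

/-- `L(f, 1) = (s(0) / M) Ω`. -/
theorem centralValue_eq_symbol (ha : ∀ n, ModularFormClass.qCoeff f n = (a n : ℂ)) (hM : 0 < M)
    (hs : ∀ r : ℚ, (s r : ℝ) * Ω = (M : ℝ) * (2 * (π : ℂ) * I * vlim f r).re)
    {G : ℂ → ℂ} (hG : Differentiable ℂ G)
    (hGs : ∀ z : ℂ, 2 < z.re → G z = LSeries (ModularFormClass.qCoeff f) z) :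
    G 1 = (((s 0 : ℚ) / M : ℚ) : ℂ) * Ω := by
  have hM' : (M : ℂ) ≠ 0 := Nat.cast_ne_zero.mpr hM.ne'
  have h := congrArg (fun x : ℝ => (x : ℂ)) (hs 0)
  rw [vlim_zero] at h
  push_cast at h
  rw [← centre_eq_re ha, ← continuation_eq_centre hG hGs] at h
  push_cast
  field_simp
  linear_combination -h

/-- `τ L(f ⊗ ψ, 1) = (∑ ψ(j) s(j/p) / M) Ω` for an even `ψ`. -/
theorem twist_eq_symbol (hf : f.IsNormalizedEigenform)
    (ha : ∀ n, ModularFormClass.qCoeff f n = (a n : ℂ)) (hM : 0 < M)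
    (hs : ∀ r : ℚ, (s r : ℝ) * Ω = (M : ℝ) * (2 * (π : ℂ) * I * vlim f r).re)
    {p : ℕ} [Fact p.Prime] {ψ : DirichletCharacter ℂ p} {e : ZMod p → ℤ}
    (he : ∀ j, ψ j = (e j : ℂ)) (hψ : ∀ u : (ZMod p)ˣ, ψ u * ψ u = 1) (hne : ψ ≠ 1)
    (heven : ψ (-1) = 1) {G : ℂ → ℂ} (hG : Differentiable ℂ G)
    (hGs : ∀ z : ℂ, 2 < z.re → G z = LSeries (fun n : ℕ => ψ (n : ZMod p) * (a n : ℂ)) z) :
    gaussTau ψ * G 1 =
      ((((∑ j : ZMod p, e j * s ((j.val : ℚ) / p) : ℤ) : ℚ) / M : ℚ) : ℂ) * Ω := by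
  have hp : p.Prime := Fact.out
  have : NeZero (N * p ^ 2) := ⟨mul_ne_zero (NeZero.ne N) (pow_ne_zero _ hp.ne_zero)⟩
  have hnd : ∀ l : ℕ, l.Prime → l ∣ p → ∃ n : ℕ, ((p / l : ℕ) : ℤ) ∣ (n : ℤ) - 1 ∧
      ψ (n : ZMod p) = -1 := fun l hl hlp => by
    obtain ⟨u, hu⟩ : ∃ u : (ZMod p)ˣ, ψ u ≠ 1 := by
      by_contra hall
      push Not at hall
      exact hne (MulChar.eq_one_iff.mpr hall)
    refine ⟨(u : ZMod p).val, ?_, ?_⟩
    · rw [(Nat.prime_dvd_prime_iff_eq hl hp).mp hlp, Nat.div_self hp.pos]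
      exact one_dvd _
    · rw [ZMod.natCast_zmod_val]
      exact (mul_self_eq_one_iff.mp (hψ u)).resolve_left hu
  obtain ⟨g, -, hg⟩ := FA.Twists.exists_twist_eigenform hf hψ
  have hg' : ∀ n, ModularFormClass.qCoeff g n = ψ (n : ZMod p) * (a n : ℂ) := fun n => by
    rw [hg, ha]
  obtain ⟨b, hb⟩ : ∃ b : ℕ → ℤ, ∀ n, ModularFormClass.qCoeff g n = (b n : ℂ) :=
    ⟨fun n => e n * a n, fun n => by rw [hg', he, Int.cast_mul]⟩
  have hG1 := continuation_eq_centre (f := g) hG fun z hz => by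
    rw [hGs z hz]
    exact congrArg (LSeries · z) (funext fun n => (hg' n).symm)
  have hτ : gaussTau ψ = ((gaussTau ψ).re : ℂ) := by
    refine (Complex.conj_eq_iff_re.mp ?_).symm
    rw [conj_gaussTau hψ, heven, one_mul]
  have hB := gaussTau_mul_toZero ha hψ hnd g hg' (fun j => vlim f (((j.val : ℚ) / p : ℚ)))
    fun j => tendsto_vlim f _
  have hM' : (M : ℂ) ≠ 0 := Nat.cast_ne_zero.mpr hM.ne'
  -- take real parts
  have hsum : ((∑ j : ZMod p, e j * s ((j.val : ℚ) / p) : ℤ) : ℝ) * Ω =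
      (M : ℝ) * (gaussTau ψ * (2 * (π : ℂ) * I * toZero g)).re := by
    rw [show gaussTau ψ * (2 * (π : ℂ) * I * toZero g) =
      2 * (π : ℂ) * I * (gaussTau ψ * toZero g) by ring, hB, Finset.mul_sum, Complex.re_sum,
      Finset.mul_sum, Int.cast_sum, Finset.sum_mul]
    refine Finset.sum_congr rfl fun j _ => ?_
    rw [Int.cast_mul, mul_assoc, hs, he, show 2 * (π : ℂ) * I * ((e j : ℂ) * vlim f _) =
      ((e j : ℝ) : ℂ) * (2 * (π : ℂ) * I * vlim f _) by push_cast; ring, Complex.re_ofReal_mul]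
    ring
  have hreal : gaussTau ψ * (2 * (π : ℂ) * I * toZero g) =
      ((gaussTau ψ * (2 * (π : ℂ) * I * toZero g)).re : ℂ) := by
    conv_lhs => rw [hτ, centre_eq_re hb]
    conv_rhs => rw [hτ, centre_eq_re hb]
    rw [← Complex.ofReal_mul, Complex.ofReal_re]
  have h := congrArg (fun x : ℝ => (x : ℂ)) hsum
  push_cast at h
  rw [← hreal, ← hG1] at h
  push_cast
  field_simp
  linear_combination -h

variable {p : ℕ} [hp : Fact p.Prime] {β : ℤ_[p]} {A : ℤ}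

theorem sum_range_zmod {B : Type*} [AddCommMonoid B] (g : ℕ → B) :
    ∑ b ∈ Finset.range p, g b = ∑ j : ZMod p, g j.val :=
  Finset.sum_nbij' (fun b => (b : ZMod p)) (fun j => j.val) (fun b _ => Finset.mem_univ _)
    (fun j _ => Finset.mem_range.mpr (ZMod.val_lt j))
    (fun b hb => ZMod.val_natCast_of_lt (Finset.mem_range.mp hb))
    (fun j _ => ZMod.natCast_zmod_val j)
    (fun b hb => by rw [ZMod.val_natCast_of_lt (Finset.mem_range.mp hb)])

theorem norm_le_iff_toZMod_eq (x y : ℤ_[p]) :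
    ‖x - y‖ ≤ (p : ℝ) ^ (-((1 : ℕ) : ℤ)) ↔ PadicInt.toZMod x = PadicInt.toZMod y := by
  rw [PadicInt.norm_le_pow_iff_mem_span_pow, pow_one, ← PadicInt.maximalIdeal_eq_span_p,
    ← PadicInt.ker_toZMod, RingHom.mem_ker, map_sub, sub_eq_zero]

theorem muValue_one (hper : ∀ r, s (r + 1) = s r) (b : ℕ) :
    muValue β s 1 b = β * (s ((b : ℚ) / p) : ℤ_[p]) - β ^ 2 * (s 0 : ℤ_[p]) := by
  have hp0 : (p : ℚ) ≠ 0 := Nat.cast_ne_zero.mpr hp.out.ne_zero
  rw [muValue, pow_one, pow_one, mul_div_assoc (b : ℚ), div_self hp0, mul_one,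
    show (s (b : ℚ)) = s 0 by simpa using periodic_add_nat hper 0 b]

variable (hper : ∀ r, s (r + 1) = s r)
  (hrel : ∀ r : ℚ, A * s r = s (p * r) + ∑ j ∈ Finset.range p, s ((r + j) / p))
  (hβ : (A : ℤ_[p]) * β - p * β ^ 2 = 1) {Λ : C(ℤ_[p], ℚ_[p]) →L[ℚ_[p]] ℚ_[p]}
  (hΛ : ∀ φ, Tendsto (riemannSum (muValue β s) φ) atTop (𝓝 (Λ φ)))

include hper hrel hβ hΛ

/-- The total mass of `ℤ_pˣ`. -/
theorem eq_units (φ : C(ℤ_[p], ℚ_[p]))
    (hφ : ∀ x : ℤ_[p], φ x = if PadicInt.toZMod x = 0 then 0 else 1) :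
    Λ φ = (1 - (β : ℚ_[p])) ^ 2 * (s 0 : ℚ_[p]) := by
  have htot := sum_muValue hper hrel hβ 0 0
  have h0 : muValue β s 0 0 = (1 - β) * (s 0 : ℤ_[p]) := by
    simp [muValue]; ring
  simp only [pow_zero, mul_one, zero_add, h0] at htot
  have h10 : muValue β s 1 0 = β * (s 0 : ℤ_[p]) - β ^ 2 * (s 0 : ℤ_[p]) := by
    rw [muValue_one hper]; simp
  rw [eq_riemannSum (sum_muValue hper hrel hβ) hΛ φ 1 fun x y h => by
    rw [hφ, hφ, (norm_le_iff_toZMod_eq x y).mp h], riemannSum, pow_one]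
  have hterm : ∀ b ∈ Finset.range p, φ (b : ℤ_[p]) * (muValue β s 1 b : ℚ_[p]) =
      (muValue β s 1 b : ℚ_[p]) - if b = 0 then (muValue β s 1 b : ℚ_[p]) else 0 := fun b hb => by
    rw [hφ, map_natCast]
    by_cases h : b = 0
    · simp [h]
    · rw [if_neg fun hd => h (Nat.eq_zero_of_dvd_of_lt ((ZMod.natCast_eq_zero_iff _ _).mp hd)
        (Finset.mem_range.mp hb)), if_neg h]
      ring
  rw [Finset.sum_congr rfl hterm, Finset.sum_sub_distrib, Finset.sum_ite_eq',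
    if_pos (Finset.mem_range.mpr hp.out.pos), ← PadicInt.coe_sum, htot, h10]
  push_cast
  ring

/-- The integral of a character modulo `p` of mean zero. -/
theorem eq_character (φ : C(ℤ_[p], ℚ_[p])) (e : ZMod p → ℤ) (he : ∑ j, e j = 0)
    (hφ : ∀ x : ℤ_[p], φ x = (e (PadicInt.toZMod x) : ℚ_[p])) :
    Λ φ = (β : ℚ_[p]) * ((∑ j : ZMod p, e j * s ((j.val : ℚ) / p) : ℤ) : ℚ_[p]) := by
  rw [eq_riemannSum (sum_muValue hper hrel hβ) hΛ φ 1 fun x y h => by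
    rw [hφ, hφ, (norm_le_iff_toZMod_eq x y).mp h], riemannSum, pow_one, sum_range_zmod]
  have h : ∀ j : ZMod p, φ (j.val : ℤ_[p]) * (muValue β s 1 j.val : ℚ_[p]) =
      (β : ℚ_[p]) * ((e j * s ((j.val : ℚ) / p) : ℤ) : ℚ_[p]) -
        (β : ℚ_[p]) ^ 2 * (s 0 : ℚ_[p]) * (e j : ℚ_[p]) := fun j => by
    rw [hφ, map_natCast, ZMod.natCast_zmod_val, muValue_one hper]
    push_cast
    ring
  simp only [h, Finset.sum_sub_distrib, ← Finset.mul_sum, ← Int.cast_sum, he, Int.cast_zero,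
    mul_zero, sub_zero]

end FA.PadicL

end
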