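import Fermat.Agent.PeriodLattice.Twist

/-!
# The plus modular symbols of an eigenform with integral coefficients

`vlim f r = ∫_{i∞}^r f`. With one multiplier `M` for all `r` the numbers `Re (2πi vlim f r)` are
integral multiples of the least real period; they are periodic and satisfy the Hecke relation.
-/

set_option autoImplicit false

noncomputable section

namespace FA.PadicL

open UpperHalfPlane hiding I
open Complex CongruenceSubgroup Filter ModularCurve FA.Period FA.ManinDrinfeld FA.PeriodLattice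
open FA.JTorsion (heckePt heckeIdx heckeForm isPrimitive_heckeForm)
open scoped Real MatrixGroups Topology ComplexConjugate

variable {N : ℕ} [NeZero N] {f : CuspForm (Gamma0 N) 2} {a : ℕ → ℤ}

/-- `∫_{i∞}^r f`, along the vertical line. -/
def vlim (f : CuspForm (Gamma0 N) 2) (r : ℚ) : ℂ :=
  limUnder (𝓝[>] (0 : ℝ)) fun t : ℝ => prim f (ofComplex ((r : ℂ) + I * (t : ℂ)))

theorem tendsto_vlim (f : CuspForm (Gamma0 N) 2) (r : ℚ) :
    Tendsto (fun t : ℝ => prim f (ofComplex ((r : ℂ) + I * (t : ℂ)))) (𝓝[>] 0) (𝓝 (vlim f r)) := by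
  obtain ⟨δ, n, γ, -, h⟩ := exists_tendsto_vertical (N := N) r
  rw [vlim, (h f).2.limUnder_eq]
  exact (h f).2

theorem exists_eq_toCusp (f : CuspForm (Gamma0 N) 2) (r : ℚ) :
    ∃ δ : SL(2, ℤ), vlim f r = toCusp δ f := by
  obtain ⟨δ, n, γ, -, h⟩ := exists_tendsto_vertical (N := N) r
  exact ⟨δ, tendsto_nhds_unique (tendsto_vlim f r) (h f).2⟩

theorem toCusp_mul (γ : Gamma0 N) (δ : SL(2, ℤ)) (f : CuspForm (Gamma0 N) 2) :
    toCusp ((γ : SL(2, ℤ)) * δ) f = periodMap N f (Additive.ofMul γ) + toCusp δ f := by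
  refine tendsto_nhds_unique (tendsto_toCusp _ f)
    (((tendsto_toCusp δ f).const_add _).congr fun w => ?_)
  rw [periodMap_apply f (isPrimitive_prim f) γ (δ • w), mul_smul, sub_add_cancel]

/-- One multiplier for all cusps. -/
theorem exists_uniform_multiplier (N : ℕ) [NeZero N] :
    ∃ M : ℕ, 0 < M ∧ ∀ (δ : SL(2, ℤ)) (f : CuspForm (Gamma0 N) 2),
      (M : ℂ) * toCusp δ f ∈ periods f := by
  classical
  have : Fintype (SL(2, ℤ) ⧸ Gamma0 N) := Fintype.ofFinite _
  choose n γ hn h using fun c : SL(2, ℤ) ⧸ Gamma0 N =>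
    exists_smul_toCusp_eq_period (N := N) (c.out : SL(2, ℤ))⁻¹
  refine ⟨∏ c, n c, Finset.prod_pos fun c _ => hn c, fun δ f => ?_⟩
  set c : SL(2, ℤ) ⧸ Gamma0 N := QuotientGroup.mk δ⁻¹ with hc
  obtain ⟨⟨g, hg⟩, hgc⟩ := QuotientGroup.mk_out_eq_mul (Gamma0 N) δ⁻¹
  have hδ : δ = g * (c.out : SL(2, ℤ))⁻¹ := by
    rw [hc, hgc]
    group
  obtain ⟨m, hm⟩ : n c ∣ ∏ i, n i := Finset.dvd_prod_of_mem _ (Finset.mem_univ c)
  rw [hδ, toCusp_mul ⟨g, hg⟩, mul_add]
  refine add_mem ?_ ?_
  · rw [← nsmul_eq_mul]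
    exact AddSubgroup.nsmul_mem _
      (show periodMap N f _ ∈ periods f from ⟨_, rfl⟩) _
  · rw [hm, Nat.cast_mul, mul_right_comm, h c f, mul_comm, ← nsmul_eq_mul]
    exact AddSubgroup.nsmul_mem _ (show periodMap N f _ ∈ periods f from ⟨_, rfl⟩) _

/-- **Bounded denominators**: one integral symbol for all rational numbers. -/
theorem exists_intSymbol (ha : ∀ n, ModularFormClass.qCoeff f n = (a n : ℂ)) {Ω : ℝ}
    (hΩ : IsLeast {x : ℝ | x ∈ realPeriods f ∧ 0 < x} Ω) :
    ∃ (M : ℕ) (s : ℚ → ℤ), 0 < M ∧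
      ∀ r : ℚ, (s r : ℝ) * Ω = (M : ℝ) * (2 * (π : ℂ) * I * vlim f r).re := by
  obtain ⟨M, hM, hper⟩ := exists_uniform_multiplier N
  have h2 : ∀ r : ℚ, ∃ m : ℤ,
      (m : ℝ) * Ω = ((2 * M : ℕ) : ℝ) * (2 * (π : ℂ) * I * vlim f r).re := by
    intro r
    obtain ⟨δ, hδ⟩ := exists_eq_toCusp f r
    have hw : (M : ℂ) * vlim f r ∈ periods f := hδ ▸ hper δ f
    obtain ⟨γ, hγ⟩ := sub_mem hw (conj_mem_periods ha hw)
    have hreal : 2 * (π : ℂ) * I * periodMap N f γ =
        ((((2 * M : ℕ) : ℝ) * (2 * (π : ℂ) * I * vlim f r).re : ℝ) : ℂ) := by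
      rw [hγ, Complex.sub_conj]
      apply Complex.ext <;> simp
      ring
    obtain ⟨m, hm⟩ := exists_eq_intCast_mul hΩ (mem_realPeriods.mpr ⟨γ, hreal⟩)
    exact ⟨m, hm.symm⟩
  choose s hs using h2
  exact ⟨2 * M, s, by omega, hs⟩

theorem vlim_add_one (f : CuspForm (Gamma0 N) 2) (r : ℚ) : vlim f (r + 1) = vlim f r := by
  have hQ := isQFun_of_mem (coe_mem_cuspForms f).1
  have hper : ∀ τ : ℍ, f ((1 : ℝ) +ᵥ τ) = f τ := fun τ => by
    have h := hQ.periodic (τ : ℂ)
    simp only [Function.comp_apply] at h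
    rw [ofComplex_apply_of_im_pos τ.im_pos,
      ofComplex_apply_of_im_pos (by simpa using τ.im_pos)] at h
    refine Eq.trans (congrArg f (UpperHalfPlane.ext ?_)) h
    simp [add_comm]
  have hp := isPrimitive_translate (isPrimitive_prim f) 1
  rw [show (fun z : ℍ => f ((1 : ℝ) +ᵥ z)) = ⇑f from funext hper] at hp
  have hp0 : Tendsto (fun z : ℍ => prim f ((1 : ℝ) +ᵥ z)) atImInfty (𝓝 0) := by
    refine (tendsto_prim f).comp (tendsto_comap_iff.mpr ?_)
    have him : Tendsto UpperHalfPlane.im atImInfty atTop := tendsto_comap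
    exact him.congr fun z => (UpperHalfPlane.vadd_im _ z).symm
  have heq := primitive_unique hp (isPrimitive_prim f) hp0 (tendsto_prim f)
  refine tendsto_nhds_unique (tendsto_vlim f (r + 1)) ((tendsto_vlim f r).congr' ?_)
  filter_upwards [self_mem_nhdsWithin] with t (ht : 0 < t)
  refine (congrFun heq _).symm.trans (congrArg (prim f) (UpperHalfPlane.ext ?_))
  rw [UpperHalfPlane.coe_vadd, ofComplex_apply_of_im_pos (by simpa using ht),
    ofComplex_apply_of_im_pos (by simpa using ht)]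
  push_cast
  ring

/-- **The Hecke relation**. -/
theorem vlim_hecke (hf : f.IsNormalizedEigenform)
    (ha : ∀ n, ModularFormClass.qCoeff f n = (a n : ℂ)) {p : ℕ} (hp : p.Prime) (hpN : ¬ p ∣ N)
    (r : ℚ) : (a p : ℂ) * vlim f r =
      vlim f (p * r) + ∑ j ∈ Finset.range p, vlim f ((r + j) / p) := by
  have : NeZero p := ⟨hp.ne_zero⟩
  have hG := isPrimitive_heckeForm N p hp (isPrimitive_prim f)
  rw [show heckeIdx N p = Finset.univ from if_neg hpN] at hG
  have hTf : heckeForm N p hp f = (a p : ℂ) • f := by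
    rw [show heckeForm N p hp = CuspForm.heckeTLin 2 hp hpN from dif_neg hpN,
      FA.JTorsion.heckeT_eigen hf hp hpN, FA.Deform.qLin_apply, ha p]
  rw [hTf] at hG
  have hpp : (0 : ℝ) < p := Nat.cast_pos.mpr hp.pos
  have him : Tendsto UpperHalfPlane.im atImInfty atTop := tendsto_comap
  have hG0 : Tendsto (fun z => ∑ x : Option (Fin p), prim f (heckePt p x z)) atImInfty (𝓝 0) := by
    have h : Tendsto (fun z => ∑ x : Option (Fin p), prim f (heckePt p x z)) atImInfty
        (𝓝 (∑ _x : Option (Fin p), (0 : ℂ))) := by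
      refine tendsto_finsetSum _ fun x _ => (tendsto_prim f).comp ?_
      refine tendsto_comap_iff.mpr ?_
      cases x with
      | none =>
        simpa [Function.comp_def, heckePt, FA.Petersson.im_heckeDiagMatrix_smul hp.ne_zero] using
          him.const_mul_atTop hpp
      | some j =>
        simpa [Function.comp_def, heckePt, FA.Petersson.im_heckeMatrix_smul hp.ne_zero] using
          him.atTop_div_const hpp
    simpa using h
  have heq := primitive_unique hG (isPrimitive_prim ((a p : ℂ) • f)) hG0 (tendsto_prim _)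
  rw [prim_smul] at heq
  have hscale : ∀ c : ℝ, 0 < c → Tendsto (fun t : ℝ => c * t) (𝓝[>] 0) (𝓝[>] 0) := fun c hc => by
    refine tendsto_nhdsWithin_of_tendsto_nhds_of_eventually_within _ ?_ ?_
    · simpa using ((tendsto_id (x := 𝓝 (0 : ℝ))).mono_left nhdsWithin_le_nhds).const_mul c
    · filter_upwards [self_mem_nhdsWithin] with t ht using mul_pos hc ht
  have hlim : Tendsto (fun t : ℝ => (a p : ℂ) * prim f (ofComplex ((r : ℂ) + I * (t : ℂ))))
      (𝓝[>] 0) (𝓝 (vlim f (p * r) + ∑ j ∈ Finset.range p, vlim f ((r + j) / p))) := by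
    rw [Finset.sum_range]
    refine (((tendsto_vlim f (p * r)).comp (hscale p hpp)).add (tendsto_finsetSum Finset.univ
      fun (j : Fin p) _ => (tendsto_vlim f ((r + ((j : ℕ) : ℚ)) / p)).comp
        (hscale (p : ℝ)⁻¹ (inv_pos.mpr hpp)))).congr' ?_
    filter_upwards [self_mem_nhdsWithin] with t (ht : 0 < t)
    have hpC : (p : ℂ) ≠ 0 := Nat.cast_ne_zero.mpr hp.ne_zero
    have h := congrFun heq (ofComplex ((r : ℂ) + I * (t : ℂ)))
    simp only [Pi.smul_apply, smul_eq_mul] at h
    rw [← h, Fintype.sum_option]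
    simp only [Function.comp_apply]
    congr 1
    · refine congrArg (prim f) (UpperHalfPlane.ext ?_)
      simp only [heckePt, ModularForm.coe_heckeDiagMatrix_smul hp.ne_zero]
      rw [ofComplex_apply_of_im_pos (by simpa using mul_pos hpp ht),
        ofComplex_apply_of_im_pos (by simpa using ht)]
      push_cast
      ring
    · refine Finset.sum_congr rfl fun j _ => congrArg (prim f) (UpperHalfPlane.ext ?_)
      simp only [heckePt, ModularForm.coe_heckeMatrix_smul hp.ne_zero]
      rw [ofComplex_apply_of_im_pos (by simpa using mul_pos (inv_pos.mpr hpp) ht),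
        ofComplex_apply_of_im_pos (by simpa using ht)]
      push_cast
      field_simp
      ring
  exact tendsto_nhds_unique ((tendsto_vlim f r).const_mul _) hlim

/-- `vlim f 0 = ∫_{i∞}^0 f`. -/
theorem vlim_zero (f : CuspForm (Gamma0 N) 2) : vlim f 0 = toZero f := by
  have hpath : Tendsto (fun t : ℝ => ofComplex (I * ((t⁻¹ : ℝ) : ℂ))) (𝓝[>] 0) atImInfty := by
    refine tendsto_comap_iff.mpr (tendsto_inv_nhdsGT_zero.congr' ?_)
    filter_upwards [self_mem_nhdsWithin] with t (ht : 0 < t)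
    rw [Function.comp_apply, ofComplex_apply_of_im_pos (by simpa using ht)]
    simp [UpperHalfPlane.im]
  refine tendsto_nhds_unique (tendsto_vlim f 0)
    (((tendsto_toZero f (isPrimitive_prim f) (tendsto_prim f)).comp hpath).congr' ?_)
  filter_upwards [self_mem_nhdsWithin] with t (ht : 0 < t)
  refine congrArg (prim f) (UpperHalfPlane.ext ?_)
  rw [FA.ManinDrinfeld.coe_S_smul]
  dsimp only
  rw [ofComplex_apply_of_im_pos (by simpa using ht),
    ofComplex_apply_of_im_pos (by simpa using ht)]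
  simp [mul_comm]

end FA.PadicL

end
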