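import Fermat.Agent.PadicL.Interpolation

/-!
# The distribution at a prime of the level

For `p ∣ N` the relation is `a_p x(r) = ∑ x((r + j)/p)`; with `a_p = ±1` the values
`a_pⁿ x(a/pⁿ)` form a distribution whose mass on the units is `(1 - a_p) x(0)`.
-/

set_option autoImplicit false

noncomputable section

namespace FA.PadicL

open UpperHalfPlane hiding I
open Complex CongruenceSubgroup Filter FA.Period FA.ManinDrinfeld
open FA.JTorsion (heckePt heckeIdx heckeForm isPrimitive_heckeForm)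
open scoped Real MatrixGroups Topology

variable {N : ℕ} [NeZero N] {f : CuspForm (Gamma0 N) 2} {a : ℕ → ℤ}

/-- **The relation of `U_p`**. -/
theorem vlim_heckeU (hf : f.IsNormalizedEigenform)
    (ha : ∀ n, ModularFormClass.qCoeff f n = (a n : ℂ)) {p : ℕ} (hp : p.Prime) (hpN : p ∣ N)
    (r : ℚ) : (a p : ℂ) * vlim f r = ∑ j ∈ Finset.range p, vlim f ((r + j) / p) := by
  have : NeZero p := ⟨hp.ne_zero⟩
  have hG := isPrimitive_heckeForm N p hp (isPrimitive_prim f)
  have hTf : heckeForm N p hp f = (a p : ℂ) • f := by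
    rw [show heckeForm N p hp = CuspForm.heckeULin 2 hpN from dif_pos hpN,
      FA.JTorsion.heckeU_eigen hf hp hpN, FA.Deform.qLin_apply, ha p]
  rw [hTf] at hG
  have hsum : ∀ z : ℍ, ∑ x ∈ heckeIdx N p, prim f (heckePt p x z) =
      ∑ j : Fin p, prim f (heckePt p (some j) z) := fun z => by
    rw [show heckeIdx N p = Finset.univ.filter (fun x => x ≠ none) from if_pos hpN,
      Finset.sum_filter, Fintype.sum_option]
    simp
  simp only [hsum] at hG
  have hpp : (0 : ℝ) < p := Nat.cast_pos.mpr hp.pos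
  have him : Tendsto UpperHalfPlane.im atImInfty atTop := tendsto_comap
  have hG0 : Tendsto (fun z => ∑ j : Fin p, prim f (heckePt p (some j) z)) atImInfty (𝓝 0) := by
    have h : Tendsto (fun z => ∑ j : Fin p, prim f (heckePt p (some j) z)) atImInfty
        (𝓝 (∑ _j : Fin p, (0 : ℂ))) := by
      refine tendsto_finsetSum _ fun j _ => (tendsto_prim f).comp (tendsto_comap_iff.mpr ?_)
      simpa [Function.comp_def, heckePt, FA.Petersson.im_heckeMatrix_smul hp.ne_zero] using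
        him.atTop_div_const hpp
    simpa using h
  have heq := primitive_unique hG (isPrimitive_prim ((a p : ℂ) • f)) hG0 (tendsto_prim _)
  rw [prim_smul] at heq
  have hscale : Tendsto (fun t : ℝ => (p : ℝ)⁻¹ * t) (𝓝[>] 0) (𝓝[>] 0) := by
    refine tendsto_nhdsWithin_of_tendsto_nhds_of_eventually_within _ ?_ ?_
    · simpa using ((tendsto_id (x := 𝓝 (0 : ℝ))).mono_left nhdsWithin_le_nhds).const_mul (p : ℝ)⁻¹
    · filter_upwards [self_mem_nhdsWithin] with t ht using mul_pos (inv_pos.mpr hpp) ht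
  refine tendsto_nhds_unique ((tendsto_vlim f r).const_mul _) ?_
  rw [Finset.sum_range]
  refine (tendsto_finsetSum Finset.univ fun (j : Fin p) _ =>
    (tendsto_vlim f ((r + ((j : ℕ) : ℚ)) / p)).comp hscale).congr' ?_
  filter_upwards [self_mem_nhdsWithin] with t (ht : 0 < t)
  have hpC : (p : ℂ) ≠ 0 := Nat.cast_ne_zero.mpr hp.ne_zero
  have h := congrFun heq (ofComplex ((r : ℂ) + I * (t : ℂ)))
  simp only [Pi.smul_apply, smul_eq_mul] at h
  rw [← h]
  refine Finset.sum_congr rfl fun j _ => congrArg (prim f) (UpperHalfPlane.ext ?_)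
  simp only [heckePt, ModularForm.coe_heckeMatrix_smul hp.ne_zero]
  rw [ofComplex_apply_of_im_pos (by simpa using mul_pos (inv_pos.mpr hpp) ht),
    ofComplex_apply_of_im_pos (by simpa using ht)]
  push_cast
  field_simp
  ring

variable {p : ℕ} [hp : Fact p.Prime] {β : ℤ_[p]} {s : ℚ → ℤ} {A : ℤ}

/-- The value of the distribution on `a + pⁿ ℤ_p` at a prime of the level. -/
def multValue (β : ℤ_[p]) (s : ℚ → ℤ) (n a : ℕ) : ℤ_[p] :=
  β ^ n * (s ((a : ℚ) / (p : ℚ) ^ n) : ℤ_[p])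

theorem sum_multValue (hrel : ∀ r : ℚ, A * s r = ∑ j ∈ Finset.range p, s ((r + j) / p))
    (hβ : (A : ℤ_[p]) * β = 1) (n a : ℕ) :
    ∑ j ∈ Finset.range p, multValue β s (n + 1) (a + j * p ^ n) = multValue β s n a := by
  have hp0 : (p : ℚ) ≠ 0 := Nat.cast_ne_zero.mpr hp.out.ne_zero
  set r : ℚ := (a : ℚ) / (p : ℚ) ^ n with hr
  have e : ∀ j : ℕ, ((a + j * p ^ n : ℕ) : ℚ) / (p : ℚ) ^ (n + 1) = (r + j) / p := fun j => by
    rw [hr]; push_cast; field_simp; ring
  simp only [multValue, e, ← Finset.mul_sum]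
  have h := congrArg (fun z : ℤ => (z : ℤ_[p])) (hrel r)
  push_cast at h
  linear_combination -β ^ (n + 1) * h + β ^ n * (s r : ℤ_[p]) * hβ

theorem eq_units_mult (hrel : ∀ r : ℚ, A * s r = ∑ j ∈ Finset.range p, s ((r + j) / p))
    (hβ : (A : ℤ_[p]) * β = 1) {Λ : C(ℤ_[p], ℚ_[p]) →L[ℚ_[p]] ℚ_[p]}
    (hΛ : ∀ φ, Tendsto (riemannSum (multValue β s) φ) atTop (𝓝 (Λ φ))) (φ : C(ℤ_[p], ℚ_[p]))
    (hφ : ∀ x : ℤ_[p], φ x = if PadicInt.toZMod x = 0 then 0 else 1) :
    Λ φ = (1 - (β : ℚ_[p])) * (s 0 : ℚ_[p]) := by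
  have htot := sum_multValue hrel hβ 0 0
  have h0 : multValue β s 0 0 = (s 0 : ℤ_[p]) := by simp [multValue]
  simp only [pow_zero, mul_one, zero_add, h0] at htot
  rw [eq_riemannSum (sum_multValue hrel hβ) hΛ φ 1 fun x y h => by
    rw [hφ, hφ, (norm_le_iff_toZMod_eq x y).mp h], riemannSum, pow_one]
  have hterm : ∀ b ∈ Finset.range p, φ (b : ℤ_[p]) * (multValue β s 1 b : ℚ_[p]) =
      (multValue β s 1 b : ℚ_[p]) - if b = 0 then (multValue β s 1 b : ℚ_[p]) else 0 :=
    fun b hb => by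
    rw [hφ, map_natCast]
    by_cases h : b = 0
    · simp [h]
    · rw [if_neg fun hd => h (Nat.eq_zero_of_dvd_of_lt ((ZMod.natCast_eq_zero_iff _ _).mp hd)
        (Finset.mem_range.mp hb)), if_neg h]
      ring
  rw [Finset.sum_congr rfl hterm, Finset.sum_sub_distrib, Finset.sum_ite_eq',
    if_pos (Finset.mem_range.mpr hp.out.pos), ← PadicInt.coe_sum, htot]
  simp [multValue]
  ring

end FA.PadicL

end
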