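import Fermat.Agent.PadicL.Distribution
import Mathlib.Topology.LocallyConstant.Algebra

/-!
# A functional on `C(ℤ_p, ℚ_p)` is determined by the indicators of the classes
-/

set_option autoImplicit false

noncomputable section

namespace FA.PadicL

open Filter
open scoped Topology

variable {p : ℕ} [hp : Fact p.Prime]

theorem continuous_classIndicator (m : ℕ) (b : ℤ_[p]) :
    Continuous fun x : ℤ_[p] => if ‖x - b‖ ≤ (p : ℝ) ^ (-(m : ℤ)) then (1 : ℚ_[p]) else 0 := by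
  classical
  let U : TopologicalSpace.Clopens ℤ_[p] := ⟨Metric.closedBall b ((p : ℝ) ^ (-(m : ℤ))),
    IsUltrametricDist.isClopen_closedBall _ (zpow_ne_zero _ (Nat.cast_ne_zero.mpr hp.out.ne_zero))⟩
  refine (LocallyConstant.charFn ℚ_[p] U.isClopen).continuous.congr fun x => ?_
  rw [LocallyConstant.coe_charFn, Set.indicator_apply, Pi.one_apply]
  simp only [U, TopologicalSpace.Clopens.coe_mk, Metric.mem_closedBall, dist_eq_norm]

/-- The indicator of `b + pᵐ ℤ_p`. -/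
def classIndicator (m : ℕ) (b : ℤ_[p]) : C(ℤ_[p], ℚ_[p]) := ⟨_, continuous_classIndicator m b⟩

/-- The step function of `φ` modulo `pⁿ`. -/
theorem norm_step_sub_le (φ : C(ℤ_[p], ℚ_[p])) {n : ℕ} {ε : ℝ} (hε : 0 ≤ ε)
    (hφ : ∀ x y : ℤ_[p], ‖x - y‖ ≤ (p : ℝ) ^ (-(n : ℤ)) → ‖φ x - φ y‖ ≤ ε) :
    ‖φ - ∑ b ∈ Finset.range (p ^ n), φ (b : ℤ_[p]) • classIndicator n (b : ℤ_[p])‖ ≤ ε := by
  refine (ContinuousMap.norm_le _ hε).mpr fun x => ?_
  set b₀ := (PadicInt.toZModPow n x).val with hb₀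
  have : NeZero (p ^ n) := ⟨pow_ne_zero _ hp.out.ne_zero⟩
  have hnear : ∀ b : ℕ, b < p ^ n →
      (‖x - (b : ℤ_[p])‖ ≤ (p : ℝ) ^ (-(n : ℤ)) ↔ b = b₀) := fun b hb => by
    rw [PadicInt.norm_le_pow_iff_mem_span_pow, ← PadicInt.ker_toZModPow, RingHom.mem_ker, map_sub,
      map_natCast, sub_eq_zero, hb₀]
    constructor
    · intro h
      rw [h, ZMod.val_natCast_of_lt hb]
    · intro h
      rw [h, ZMod.natCast_zmod_val]
  have hlt : b₀ < p ^ n := ZMod.val_lt _
  rw [ContinuousMap.sub_apply, ContinuousMap.sum_apply,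
    Finset.sum_eq_single_of_mem b₀ (Finset.mem_range.mpr hlt) fun b hb hne => ?_]
  · simp only [ContinuousMap.smul_apply, classIndicator, ContinuousMap.coe_mk, smul_eq_mul]
    rw [if_pos ((hnear b₀ hlt).mpr rfl), mul_one]
    exact hφ _ _ ((hnear b₀ hlt).mpr rfl)
  · simp only [ContinuousMap.smul_apply, classIndicator, ContinuousMap.coe_mk, smul_eq_mul]
    rw [if_neg (fun h => hne ((hnear b (Finset.mem_range.mp hb)).mp h)), mul_zero]

/-- **Uniqueness**. -/
theorem functional_ext {L L' : C(ℤ_[p], ℚ_[p]) →L[ℚ_[p]] ℚ_[p]}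
    (h : ∀ (m b : ℕ), b < p ^ m →
      L (classIndicator m (b : ℤ_[p])) = L' (classIndicator m (b : ℤ_[p]))) : L = L' := by
  refine ContinuousLinearMap.ext fun φ => ?_
  set ψ : ℕ → C(ℤ_[p], ℚ_[p]) := fun n =>
    ∑ b ∈ Finset.range (p ^ n), φ (b : ℤ_[p]) • classIndicator n (b : ℤ_[p]) with hψ
  have heq : ∀ n, L (ψ n) = L' (ψ n) := fun n => by
    simp only [hψ, map_sum, map_smul]
    exact Finset.sum_congr rfl fun b hb => by rw [h n b (Finset.mem_range.mp hb)]
  have hlim : Tendsto ψ atTop (𝓝 φ) := by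
    rw [Metric.tendsto_atTop]
    intro ε hε
    obtain ⟨d, hd, hφ⟩ := Metric.uniformContinuous_iff.mp
      (CompactSpace.uniformContinuous_of_continuous φ.continuous) (ε / 2) (half_pos hε)
    obtain ⟨K, hK⟩ := exists_pow_lt_of_lt_one hd
      (inv_lt_one_of_one_lt₀ (Nat.one_lt_cast.mpr hp.out.one_lt : (1 : ℝ) < p))
    refine ⟨K, fun n hn => ?_⟩
    rw [dist_eq_norm, norm_sub_rev]
    refine lt_of_le_of_lt (norm_step_sub_le φ (half_pos hε).le fun x y hxy => ?_) (half_lt_self hε)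
    rw [← dist_eq_norm]
    refine (hφ ?_).le
    rw [dist_eq_norm]
    refine lt_of_le_of_lt (hxy.trans ?_) hK
    rw [zpow_neg, zpow_natCast, ← inv_pow]
    exact pow_le_pow_of_le_one (by positivity)
      (inv_le_one_of_one_le₀ (Nat.one_le_cast.mpr hp.out.pos)) hn
  exact tendsto_nhds_unique (((L.continuous.tendsto φ).comp hlim).congr heq)
    ((L'.continuous.tendsto φ).comp hlim)

end FA.PadicL

end
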